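import Fermat.Agent.GalRep.Flat.Subquot
import Fermat.Agent.GalRep.Ordinary.Socle
import Fermat.Agent.GalRep.Model.Reduction
import Fermat.Agent.MCurve.Flat.Setup
import Fermat.Agent.Deform.AbsIrred
import Fermat.Prelude.Def_CuspForm_HeckeGaloisRepDatum

/-!
Flatness of the representation of a Hecke algebra from finite flat models of the levels of the
lattice and the stability of finite flat models under subquotients.
-/

set_option autoImplicit false
set_option linter.style.haveILetI false
set_option linter.unusedSectionVars false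

noncomputable section

namespace Fermat.Agent.GalRep.Flat

open Fermat.Agent.Galois (GQ)
open Fermat.Agent.Deform
open Fermat.Agent.MCurve.Flat (HasFlatModel)
open Fermat.Agent.GalRep.Ordinary (latDatum neZero_pow exists_smul_of_redPow_eq_zero redPow_smul_pow)
open IsLocalRing
open scoped IsMulCommutative

attribute [local instance] neZero_pow

/-- Flatness at a prime of good reduction. -/
theorem isFlatAt_of_levels
    {𝒪 : Type} [CommRing 𝒪] [IsDomain 𝒪] [IsDiscreteValuationRing 𝒪]
    [IsAdicComplete (maximalIdeal 𝒪) 𝒪] [Finite (ResidueField 𝒪)]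
    {p N : ℕ} [Fact p.Prime] [NeZero p] [NeZero N] (hp𝒪 : (p : 𝒪) ∈ maximalIdeal 𝒪) {S : Finset ℕ}
    {θ : CuspForm.heckeAlgebra N 2 (↑S : Set ℕ) →+* ResidueField 𝒪}
    {T : Type} [CommRing T] [IsLocalRing T] [IsNoetherianRing T]
    [IsAdicComplete (maximalIdeal T) T] [Algebra 𝒪 T] [IsLocalHom (algebraMap 𝒪 T)]
    [Module.Finite 𝒪 T] [Module.Free 𝒪 T]
    (H : CuspForm.HeckeGaloisRepDatum N (↑S : Set ℕ) 𝒪 θ T)
    (hlev : ∀ n : ℕ, ∃ (M : Type) (_ : AddCommGroup M) (_ : DistribMulAction GQ M) (_ : Finite M)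
      (κ : M →+ ParHom N (ZMod (p ^ n))), Function.Injective κ ∧
        (∀ σ z, κ (σ • z) = (kummerGalois N (p ^ n)).galois σ (κ z)) ∧
        (∀ v : Lat N p, ∃ z, κ z = redPow n v) ∧ HasFlatModel M p)
    (hsub : ∀ {X Y : Type} [AddCommGroup X] [AddCommGroup Y] [DistribMulAction GQ X]
      [DistribMulAction GQ Y] [Finite X] [Finite Y] (f : X →+ Y), Function.Injective f →
      (∀ (σ : GQ) x, f (σ • x) = σ • f x) → HasFlatModel Y p → HasFlatModel X p)
    (hquot : ∀ {X Y : Type} [AddCommGroup X] [AddCommGroup Y] [DistribMulAction GQ X]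
      [DistribMulAction GQ Y] [Finite X] [Finite Y] (f : X →+ Y), Function.Surjective f →
      (∀ (σ : GQ) x, f (σ • x) = σ • f x) → HasFlatModel X p → HasFlatModel Y p)
    (hpow : ∀ {X : Type} [AddCommGroup X] [DistribMulAction GQ X] [Finite X] (ι : Type) [Finite ι],
      HasFlatModel X p → HasFlatModel (ι → X) p) :
    H.ρ.IsFlatAt p := by
  have hpT : (p : T) ∈ maximalIdeal T := by
    have := map_nonunit (algebraMap 𝒪 T) _ hp𝒪
    rwa [map_natCast] at this
  letI : Algebra ℤ_[p] T := padicAlgebra hpT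
  haveI hfinT : Finite (ResidueField T) :=
    Finite.of_surjective (ResidueField.map (algebraMap 𝒪 T)) fun x => by
      obtain ⟨a, ha⟩ := H.residue_surjective x
      exact ⟨residue 𝒪 a, ha⟩
  refine ⟨hfinT, fun I hI => ?_⟩
  haveI := hI
  have hred := Model.kummerReduction N
  obtain ⟨ψ, hψ, hψc⟩ := exists_extension (D := latDatum (p := p) hred) hpT
    (fun x hx => IsHausdorff.haus (inferInstance : IsHausdorff (maximalIdeal T) T) x fun k => by
      rw [SModEq.zero, smul_eq_mul, Ideal.mul_top]; exact hx k) H.π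
  obtain ⟨r, hr⟩ := exists_hasMatrix H.ρ
  have htr := trace_eq_uTrace (latDatum (p := p) hred) S frobeniusPowDensity H.π ψ hψ hψc H.ρ
    H.charpoly_frob hr
  obtain ⟨n, hn⟩ := exists_quotient_of_stable (latDatum (p := p) hred) ψ hψc hr
    ((HasMatrix.residual hr).traceNondeg H.residual_absIrr) htr I
  obtain ⟨M, iM, iG, iF, κ, hκi, hκσ, hκs, hφflat⟩ := hlev n
  choose z hz using hκs
  let φ : (latDatum (p := p) hred).L →+ M :=
    { toFun := z
      map_zero' := hκi ((hz _).trans ((map_zero (redPow n)).trans (map_zero κ).symm))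
      map_add' := fun v w => hκi ((hz _).trans ((map_add (redPow n) (v : Lat N p) w).trans
        ((congrArg₂ (· + ·) (hz v) (hz w)).symm.trans (map_add κ _ _).symm))) }
  obtain ⟨hfinW, ι, hι, U, hU, π, hπ, hπσ⟩ := hn M φ
    (fun v hv => exists_smul_of_redPow_eq_zero (k := n) (v := v)
      (((hz v).symm.trans (congrArg κ hv)).trans (map_zero κ)))
    (fun w => hκi (((hz _).trans (redPow_smul_pow n w)).trans (map_zero κ).symm))
    (fun σ v => hκi (by
      rw [hκσ]
      refine ((hz _).trans ?_).trans (congrArg _ (hz v).symm)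
      exact redPow_latGalois (fun k => kummerGalois N (p ^ k)) (kummerCompat N) σ v n))
  letI actU : DistribMulAction GQ U :=
    { smul := fun σ u => ⟨σ • (u : ι → M), hU σ _ u.2⟩
      one_smul := fun u => Subtype.ext (one_smul GQ (u : ι → M))
      mul_smul := fun σ τ u => Subtype.ext (mul_smul σ τ (u : ι → M))
      smul_zero := fun σ => Subtype.ext (smul_zero σ)
      smul_add := fun σ u v => Subtype.ext (smul_add σ (u : ι → M) (v : ι → M)) }
  letI actW : DistribMulAction GQ (H.ρ.V ⧸ (I • (⊤ : Submodule T H.ρ.V))) :=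
    { smul := fun σ w => H.ρ.levelAction I σ w
      one_smul := fun w => Submodule.Quotient.induction_on _ w fun v => by
        show Submodule.Quotient.mk (H.ρ.ρ 1 v) = _
        rw [map_one, Module.End.one_apply]
      mul_smul := fun σ τ w => Submodule.Quotient.induction_on _ w fun v => by
        show Submodule.Quotient.mk (H.ρ.ρ (σ * τ) v) = Submodule.Quotient.mk (H.ρ.ρ σ (H.ρ.ρ τ v))
        rw [map_mul, Module.End.mul_apply]
      smul_zero := fun σ => map_zero (H.ρ.levelAction I σ)
      smul_add := fun σ u v => map_add (H.ρ.levelAction I σ) u v }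
  have h2 : HasFlatModel (H.ρ.V ⧸ (I • (⊤ : Submodule T H.ρ.V))) p :=
    hquot π hπ (fun σ u => hπσ σ u (σ • u) rfl)
      (hsub U.subtype (AddSubgroup.subtype_injective U) (fun σ u => rfl) (hpow ι hφflat))
  obtain ⟨A, iA, iH, hfin, hflat, hcc, e, he1, he2⟩ := h2
  exact ⟨A, iA, iH, hfin, hflat, hcc, e, he1, fun σ f g h => he2 σ f g h⟩

end Fermat.Agent.GalRep.Flat
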