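import Fermat.Agent.Deform.Carayol
import Mathlib.FieldTheory.IsAlgClosed.AlgebraicClosure

/-!
A two dimensional representation spanning all matrices has a commutator of trace different from two.
-/

set_option autoImplicit false
set_option linter.unusedSectionVars false

noncomputable section

namespace Fermat.Agent.GalRep.Flat

open Matrix
open Fermat.Agent.Deform

local notation "M₂(" A ")" => Matrix (Fin 2) (Fin 2) A

variable {G : Type} [Group G] {K : Type} [Field K]

/-- Spanning is preserved by extensions of the field. -/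
theorem traceNondeg_map {L : Type} [Field L] (f : K →+* L) {r : G →* M₂(K)} (h : TraceNondeg r) :
    TraceNondeg ((f.mapMatrix.toMonoidHom).comp r) := by
  obtain ⟨σ, hσ, -⟩ := exists_frame h
  intro T hT
  have hdet : (coordMat fun s => (f.mapMatrix (r (σ s)))).det ≠ 0 := by
    have e : (coordMat fun s => (f.mapMatrix (r (σ s)))) =
        f.mapMatrix (coordMat fun s => r (σ s)) := by
      ext p s
      simp [coordMat]
    rw [e, ← RingHom.map_det]
    exact (map_ne_zero f).mpr hσ
  have hX : ∀ X : M₂(L), (T * X).trace = 0 := by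
    intro X
    obtain ⟨c, hc⟩ := (Matrix.mulVec_surjective_iff_isUnit.mpr
      ((Matrix.isUnit_iff_isUnit_det _).mpr (Ne.isUnit hdet))) fun p => X p.1 p.2
    have hX' : X = ∑ s, c s • f.mapMatrix (r (σ s)) := Matrix.ext fun i j => by
      rw [← coordMat_mulVec _ _ (i, j), hc]
    rw [hX', trace_mul_sum_smul]
    exact Finset.sum_eq_zero fun s _ => by
      show c s * (T * f.mapMatrix (r (σ s))).trace = 0
      rw [show (T * f.mapMatrix (r (σ s))).trace = 0 from hT (σ s), mul_zero]
  ext i j
  have := hX (Matrix.single j i 1)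
  rwa [Matrix.trace_mul_comm, Matrix.trace_single_mul, smul_eq_mul, one_mul] at this

/-- Conjugation of a representation. -/
def conjRep (P : (M₂(K))ˣ) (r : G →* M₂(K)) : G →* M₂(K) where
  toFun g := (P⁻¹).val * r g * P.val
  map_one' := by rw [map_one, mul_one, Units.inv_mul]
  map_mul' g h := by rw [map_mul]; simp only [mul_assoc, Units.mul_inv_cancel_left]

theorem traceNondeg_conjRep (P : (M₂(K))ˣ) {r : G →* M₂(K)} (h : TraceNondeg r) :
    TraceNondeg (conjRep P r) := by
  intro T hT
  have h0 : P.val * T * (P⁻¹).val = 0 := h _ fun g => by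
    have e := hT g
    show (P.val * T * (P⁻¹).val * r g).trace = 0
    rw [← e]
    show _ = (T * ((P⁻¹).val * r g * P.val)).trace
    rw [mul_assoc, mul_assoc, Matrix.trace_mul_comm, mul_assoc]
  calc T = (P⁻¹).val * (P.val * T * (P⁻¹).val) * P.val := by
        simp [mul_assoc]
    _ = 0 := by rw [h0, mul_zero, zero_mul]

theorem det_comm_conjRep (P : (M₂(K))ˣ) {r : G →* M₂(K)}
    (h : ∀ a b, (r a * r b - r b * r a).det = 0) (a b : G) :
    (conjRep P r a * conjRep P r b - conjRep P r b * conjRep P r a).det = 0 := by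
  have e : conjRep P r a * conjRep P r b - conjRep P r b * conjRep P r a =
      (P⁻¹).val * (r a * r b - r b * r a) * P.val := by
    rw [← map_mul, ← map_mul, mul_sub, sub_mul, ← map_mul r, ← map_mul r]
    rfl
  rw [e, Matrix.det_mul, Matrix.det_mul, h, mul_zero, zero_mul]

theorem exists_nonzero_entry {r : G →* M₂(K)} (h : TraceNondeg r) (i j : Fin 2) :
    ∃ g, r g i j ≠ 0 := by
  by_contra hc
  push Not at hc
  have h0 := h (Matrix.single j i 1) fun g => by
    rw [Matrix.trace_single_mul, hc g, smul_zero]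
  have := congrFun (congrFun h0 j) i
  rw [Matrix.single_apply_same] at this
  exact one_ne_zero this

theorem det_ne_zero_of_rep (r : G →* M₂(K)) (g : G) : (r g).det ≠ 0 := fun e => by
  have := congrArg Matrix.det (map_mul r g g⁻¹)
  rw [mul_inv_cancel, map_one, Matrix.det_one, Matrix.det_mul, e, zero_mul] at this
  exact one_ne_zero this

/-- An invertible matrix with a given first column. -/
theorem exists_unit_col {v : Fin 2 → K} (hv : v ≠ 0) : ∃ P : (M₂(K))ˣ, ∀ i, P.val i 0 = v i := by
  by_cases h0 : v 0 = 0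
  · have h1 : v 1 ≠ 0 := fun h1 => hv (funext fun i => by fin_cases i <;> simp [h0, h1])
    refine ⟨((Matrix.isUnit_iff_isUnit_det (!![v 0, 1; v 1, 0] : M₂(K))).mpr
      (Ne.isUnit (by rw [Matrix.det_fin_two_of]; simpa using h1))).unit, fun i => ?_⟩
    fin_cases i <;> simp
  · refine ⟨((Matrix.isUnit_iff_isUnit_det (!![v 0, 0; v 1, 1] : M₂(K))).mpr
      (Ne.isUnit (by rw [Matrix.det_fin_two_of]; simpa using h0))).unit, fun i => ?_⟩
    fin_cases i <;> simp

theorem det_comm_triangular (A B : M₂(K)) (h : A 1 0 = 0) : (A * B - B * A).det =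
    B 1 0 * (-(A 0 1 * A 0 1) * B 1 0 + (A 0 0 - A 1 1) * (A 0 0 - A 1 1) * B 0 1 +
      (A 0 0 - A 1 1) * A 0 1 * (B 1 1 - B 0 0)) := by
  rw [Matrix.det_fin_two]
  simp only [Matrix.sub_apply, Matrix.mul_apply, Fin.sum_univ_two, h]
  ring

/-- No representation with an element `diag(x, z)` and all commutators singular spans. -/
theorem not_traceNondeg_of_diag {r : G →* M₂(K)} (hn : TraceNondeg r)
    (hd : ∀ a b, (r a * r b - r b * r a).det = 0) {a : G} (h10 : r a 1 0 = 0) (h01 : r a 0 1 = 0)
    (hne : r a 0 0 ≠ r a 1 1) : False := by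
  have hzero : ∀ b, r b 1 0 * r b 0 1 = 0 := fun b => by
    have := hd a b
    rw [det_comm_triangular _ _ h10, h01] at this
    have e : (r a 0 0 - r a 1 1) * (r a 0 0 - r a 1 1) * (r b 1 0 * r b 0 1) = 0 := by
      linear_combination this
    exact (mul_eq_zero.mp e).resolve_left
      (mul_ne_zero (sub_ne_zero.mpr hne) (sub_ne_zero.mpr hne))
  obtain ⟨b, hb⟩ := exists_nonzero_entry hn 1 0
  obtain ⟨c, hcc⟩ := exists_nonzero_entry hn 0 1
  have hb0 : r b 0 1 = 0 := (mul_eq_zero.mp (hzero b)).resolve_left hb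
  have hc0 : r c 1 0 = 0 := (mul_eq_zero.mp (hzero c)).resolve_right hcc
  have hub := det_ne_zero_of_rep r b
  have huc := det_ne_zero_of_rep r c
  rw [Matrix.det_fin_two, hb0, zero_mul, sub_zero] at hub
  rw [Matrix.det_fin_two, hc0, mul_zero, sub_zero] at huc
  have := hzero (b * c)
  rw [map_mul, Matrix.mul_apply, Matrix.mul_apply, Fin.sum_univ_two, Fin.sum_univ_two, hb0, hc0,
    mul_zero, add_zero, zero_mul, add_zero] at this
  exact mul_ne_zero (mul_ne_zero hb (left_ne_zero_of_mul huc))
    (mul_ne_zero (left_ne_zero_of_mul hub) hcc) this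

/-- A representation spanning all matrices over an algebraically closed field has two elements whose
commutator in the matrices is invertible. -/
theorem exists_det_comm_ne_zero [IsAlgClosed K] {r : G →* M₂(K)} (h : TraceNondeg r) :
    ∃ a b, (r a * r b - r b * r a).det ≠ 0 := by
  by_contra hc
  push Not at hc
  obtain ⟨a, ha⟩ := exists_nonzero_entry h 0 1
  obtain ⟨x, hx⟩ := Module.End.exists_eigenvalue (Matrix.toLin' (r a))
  obtain ⟨v, hv⟩ := hx.exists_hasEigenvector
  have hav : r a *ᵥ v = x • v := by simpa using hv.apply_eq_smul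
  obtain ⟨P, hPv⟩ := exists_unit_col hv.2
  set r₁ := conjRep P r
  have hcol : P.val *ᵥ Pi.single 0 1 = v := by
    rw [Matrix.mulVec_single_one]
    exact funext hPv
  have h10 : r₁ a 1 0 = 0 := by
    have e : r₁ a *ᵥ Pi.single 0 1 = x • Pi.single 0 1 := by
      show ((P⁻¹).val * r a * P.val) *ᵥ Pi.single 0 1 = _
      rw [← Matrix.mulVec_mulVec, ← Matrix.mulVec_mulVec, hcol, hav, Matrix.mulVec_smul, ← hcol,
        Matrix.mulVec_mulVec, Units.inv_mul, Matrix.one_mulVec]
    have := congrFun e 1
    rw [Matrix.mulVec_single_one] at this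
    simpa using this
  have hd₁ := det_comm_conjRep P hc
  have hn₁ := traceNondeg_conjRep P h
  by_cases hxz : r₁ a 0 0 = r₁ a 1 1
  · -- a single eigenvalue: the element is scalar
    obtain ⟨b, hb⟩ := exists_nonzero_entry hn₁ 1 0
    have hy : r₁ a 0 1 = 0 := by
      have := hd₁ a b
      rw [det_comm_triangular _ _ h10, hxz] at this
      have e : r₁ a 0 1 * r₁ a 0 1 * (r₁ b 1 0 * r₁ b 1 0) = 0 := by linear_combination -this
      rcases mul_eq_zero.mp e with h' | h'
      exacts [mul_self_eq_zero.mp h', absurd (mul_self_eq_zero.mp h') hb]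
    have hsc : r₁ a = r₁ a 0 0 • (1 : M₂(K)) := by
      ext i j
      fin_cases i <;> fin_cases j <;> simp [h10, hy, hxz]
    have e : r a = P.val * r₁ a * (P⁻¹).val := by
      show _ = P.val * ((P⁻¹).val * r a * P.val) * (P⁻¹).val
      simp [mul_assoc]
    refine ha ?_
    rw [e, hsc, mul_smul_comm, mul_one, smul_mul_assoc, Units.mul_inv]
    simp
  · set s := r₁ a 0 1 / (r₁ a 1 1 - r₁ a 0 0) with hs
    have hne : r₁ a 1 1 - r₁ a 0 0 ≠ 0 := sub_ne_zero.mpr (Ne.symm hxz)
    let U : (M₂(K))ˣ := ⟨!![1, s; 0, 1], !![1, -s; 0, 1],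
      by ext i j; fin_cases i <;> fin_cases j <;> simp [Matrix.mul_apply, Fin.sum_univ_two],
      by ext i j; fin_cases i <;> fin_cases j <;> simp [Matrix.mul_apply, Fin.sum_univ_two]⟩
    have e2 : conjRep U r₁ a = (!![1, -s; 0, 1] : M₂(K)) * r₁ a * !![1, s; 0, 1] := rfl
    refine not_traceNondeg_of_diag (a := a) (traceNondeg_conjRep U hn₁) (det_comm_conjRep U hd₁)
      ?_ ?_ ?_ <;>
      rw [e2, Matrix.eta_fin_two (r₁ a), h10, Matrix.mul_fin_two, Matrix.mul_fin_two] <;> simp
    · have : s * (r₁ a 1 1 - r₁ a 0 0) = r₁ a 0 1 := div_mul_cancel₀ _ hne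
      linear_combination -this
    · exact hxz

/-- A representation spanning all matrices has a commutator of trace different from two. -/
theorem exists_commutator_trace_ne_two {r : G →* M₂(K)} (h : TraceNondeg r) :
    ∃ a b, (r (a * b * a⁻¹ * b⁻¹)).trace ≠ 2 := by
  obtain ⟨a, b, hab⟩ := exists_det_comm_ne_zero
    (traceNondeg_map (algebraMap K (AlgebraicClosure K)) h)
  refine ⟨a, b, fun htr => hab ?_⟩
  set C := r (a * b * a⁻¹ * b⁻¹)
  have hunit : ∀ g, (r g).det ≠ 0 := fun g e => by
    have := congrArg Matrix.det (map_mul r g g⁻¹)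
    rw [mul_inv_cancel, map_one, Matrix.det_one, Matrix.det_mul, e, zero_mul] at this
    exact one_ne_zero this
  have hdet : C.det = 1 := by
    have hh : ∀ g, (r g).det = (Matrix.detMonoidHom.comp r) g := fun g => rfl
    rw [hh]
    have e1 : ∀ g, (Matrix.detMonoidHom.comp r) g * (Matrix.detMonoidHom.comp r) g⁻¹ = 1 := fun g => by
      rw [← map_mul, mul_inv_cancel, map_one]
    simp only [map_mul]
    linear_combination (Matrix.detMonoidHom.comp r) b * (Matrix.detMonoidHom.comp r) b⁻¹ * e1 a + e1 b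
  have hC : (C - 1).det = 0 := by
    rw [Matrix.trace_fin_two] at htr
    rw [Matrix.det_fin_two] at hdet
    simp [Matrix.det_fin_two]
    linear_combination hdet - htr
  have e : r a * r b - r b * r a = (C - 1) * (r b * r a) := by
    rw [sub_mul, one_mul, ← map_mul r b a, ← map_mul r, ← map_mul]
    congr 2
    group
  show ((algebraMap K (AlgebraicClosure K)).mapMatrix (r a) *
    (algebraMap K (AlgebraicClosure K)).mapMatrix (r b) -
    (algebraMap K (AlgebraicClosure K)).mapMatrix (r b) *
    (algebraMap K (AlgebraicClosure K)).mapMatrix (r a)).det = 0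
  rw [← map_mul (algebraMap K (AlgebraicClosure K)).mapMatrix,
    ← map_mul (algebraMap K (AlgebraicClosure K)).mapMatrix, ← map_sub, ← RingHom.map_det, e,
    Matrix.det_mul, hC, zero_mul, map_zero]

end Fermat.Agent.GalRep.Flat
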