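import Fermat.Agent.GalRep.Flat.CommutatorSpan
import Fermat.Agent.GalRep.Ordinary.Transfer
import Fermat.Prelude.Def_GaloisRep_Flat

/-!
The finite levels of a residually absolutely irreducible representation with the traces of the Hecke
algebra are quotients of Galois stable subgroups of powers of the finite levels of the lattice.
-/

set_option autoImplicit false
set_option linter.style.haveILetI false
set_option linter.unusedSectionVars false

noncomputable section

namespace Fermat.Agent.GalRep.Flat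

open Fermat.Agent.Galois (GQ)
open Fermat.Agent.Deform
open Fermat.Agent.GalRep.Ordinary (gD gD_of gR gR_of redMat redMat_gR_eq_zero)
open IsLocalRing
open scoped IsMulCommutative

/-- An ideal of finite index contains a power of the maximal ideal. -/
theorem exists_pow_le_of_finite_quotient {T : Type} [CommRing T] [IsLocalRing T] [IsNoetherianRing T]
    (I : Ideal T) [Finite (T ⧸ I)] : ∃ k, maximalIdeal T ^ k ≤ I := by
  refine Ideal.exists_pow_le_of_le_radical_of_fg (fun x hx => ?_) (IsNoetherian.noetherian _)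
  obtain ⟨i, j, hij, he⟩ := Finite.exists_ne_map_eq_of_infinite fun i : ℕ => Ideal.Quotient.mk I (x ^ i)
  wlog h : i < j generalizing i j
  · exact this j i hij.symm he.symm (lt_of_le_of_ne (not_lt.mp h) hij.symm)
  refine ⟨i, ?_⟩
  obtain ⟨u, hu⟩ : IsUnit (1 - x ^ (j - i)) := IsLocalRing.isUnit_one_sub_self_of_mem_nonunits _
    ((mem_maximalIdeal _).mp (Ideal.pow_mem_of_mem _ hx _ (Nat.sub_pos_of_lt h)))
  have := Ideal.mul_mem_right ((u⁻¹ : Tˣ) : T) _ (Ideal.Quotient.eq.mp he)
  rwa [show x ^ i - x ^ j = x ^ i * (1 - x ^ (j - i)) by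
    rw [mul_sub, mul_one, ← pow_add, Nat.add_sub_cancel' h.le], ← hu, mul_assoc, Units.mul_inv,
    mul_one] at this

/-- The group ring acting through a representation. -/
def gV {T : Type} [CommRing T] [IsLocalRing T] (ρ : GaloisRepAdic T) :
    MonoidAlgebra ℤ GQ →ₐ[ℤ] Module.End T ρ.V :=
  MonoidAlgebra.lift ℤ (Module.End T ρ.V) GQ ρ.ρ

theorem gV_of {T : Type} [CommRing T] [IsLocalRing T] (ρ : GaloisRepAdic T) (g : GQ) :
    gV ρ (MonoidAlgebra.of ℤ GQ g) = ρ.ρ g := MonoidAlgebra.lift_of _ _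

/-- A module whose annihilator in the group ring contains that of a family of functions is a quotient
of a stable subgroup of a power. -/
theorem exists_quotient_of_ker {G W M ι₀ : Type} [Group G] [AddCommGroup W] [Finite W] [Finite ι₀]
    [AddCommGroup M] [DistribMulAction G M] (f : MonoidAlgebra ℤ G →+ (ι₀ → M))
    (hf : ∀ σ X, f (MonoidAlgebra.of ℤ G σ * X) = σ • f X) (act : W → MonoidAlgebra ℤ G →+ W)
    (hact1 : ∀ w, act w 1 = w) (L : G → W →+ W)
    (hactσ : ∀ σ w X, act w (MonoidAlgebra.of ℤ G σ * X) = L σ (act w X))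
    (hker : ∀ X, f X = 0 → ∀ w, act w X = 0) :
    ∃ (ι : Type) (_ : Finite ι) (U : AddSubgroup (ι → M)),
      (∀ (σ : G), ∀ u ∈ U, σ • u ∈ U) ∧
      ∃ π : U →+ W, Function.Surjective π ∧
        ∀ (σ : G) (u u' : U), (u' : ι → M) = σ • (u : ι → M) → π u' = L σ (π u) := by
  let Θ : (W →₀ MonoidAlgebra ℤ G) →+ (W × ι₀ → M) :=
    { toFun := fun X jv => f (X jv.1) jv.2
      map_zero' := funext fun jv => by simp
      map_add' := fun X Y => funext fun jv => by simp }
  let Ev : (W →₀ MonoidAlgebra ℤ G) →+ W := Finsupp.liftAddHom act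
  have hk : Θ.rangeRestrict.ker ≤ Ev.ker := fun X hX => by
    rw [AddMonoidHom.ker_rangeRestrict, AddMonoidHom.mem_ker] at hX
    rw [AddMonoidHom.mem_ker, Finsupp.liftAddHom_apply]
    exact Finset.sum_eq_zero fun j _ => hker _ (funext fun v => congrFun hX (j, v)) _
  set π := AddMonoidHom.liftOfSurjective Θ.rangeRestrict Θ.rangeRestrict_surjective ⟨Ev, hk⟩
  have hπΘ : ∀ X, π (Θ.rangeRestrict X) = Ev X := fun X =>
    AddMonoidHom.liftOfRightInverse_comp_apply _ _ _ _ X
  have hσΘ : ∀ (σ : G) (X : W →₀ MonoidAlgebra ℤ G),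
      Θ (X.mapRange (fun x => MonoidAlgebra.of ℤ G σ * x) (mul_zero _)) = σ • Θ X := fun σ X => by
    funext jv
    show f ((X.mapRange _ (mul_zero _)) jv.1) jv.2 = σ • f (X jv.1) jv.2
    rw [Finsupp.mapRange_apply, hf]
    rfl
  refine ⟨W × ι₀, inferInstance, Θ.range, ?_, π, fun w => ?_, fun σ u u' he => ?_⟩
  · rintro σ _ ⟨X, rfl⟩
    exact ⟨_, hσΘ σ X⟩
  · refine ⟨Θ.rangeRestrict (Finsupp.single w 1), ?_⟩
    rw [hπΘ, Finsupp.liftAddHom_apply_single, hact1]
  · obtain ⟨X, rfl⟩ := Θ.rangeRestrict_surjective u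
    have e : u' = Θ.rangeRestrict (X.mapRange (fun x => MonoidAlgebra.of ℤ G σ * x) (mul_zero _)) :=
      Subtype.ext (he.trans (hσΘ σ X).symm)
    rw [e, hπΘ, hπΘ, Finsupp.liftAddHom_apply, Finsupp.liftAddHom_apply,
      Finsupp.sum_mapRange_index (fun j => map_zero _), map_finsuppSum]
    exact Finsupp.sum_congr fun j _ => hactσ _ _ _

variable {N p : ℕ} [NeZero N] [Fact p.Prime] (D : EichlerShimuraDatum N p) {S : Finset ℕ}
  {T : Type} [CommRing T] [IsLocalRing T] [IsNoetherianRing T] [Algebra ℤ_[p] T]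
  [IsHausdorff (maximalIdeal T) T]

/-- The levels of the representation are quotients of Galois stable subgroups of powers of any
faithful image of the corresponding level of the lattice. -/
theorem exists_quotient_of_stable (ψ : heckeClosure D (↑S : Set ℕ) →ₐ[ℤ_[p]] T)
    (hψc : ∀ k, ∃ n : ℕ, ∀ c : heckeClosure D (↑S : Set ℕ),
      (∃ f, (c : Module.End ℤ_[p] D.L) = (p ^ n : ℤ_[p]) • f) → ψ c ∈ maximalIdeal T ^ k)
    {ρ : GaloisRepAdic T} {r : GQ →* Mat2 T} (hr : HasMatrix ρ r)
    (hnd : TraceNondeg ((mapHom (residue T)).comp r))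
    (htr : ∀ g, (r g).trace = ψ ⟨uTrace D g, uTrace_mem D frobeniusPowDensity S g⟩)
    (I : Ideal T) [Finite (T ⧸ I)] :
    ∃ n : ℕ, ∀ (M : Type) [AddCommGroup M] [DistribMulAction GQ M] (φ : D.L →+ M),
      (∀ v, φ v = 0 → ∃ w, v = (p ^ n : ℤ_[p]) • w) →
      (∀ (w : D.L), φ ((p ^ n : ℤ_[p]) • w) = 0) →
      (∀ σ v, φ (D.galois σ v) = σ • φ v) →
      Finite (ρ.V ⧸ (I • (⊤ : Submodule T ρ.V))) ∧
      ∃ (ι : Type) (_ : Finite ι) (U : AddSubgroup (ι → M)),
        (∀ (σ : GQ), ∀ u ∈ U, σ • u ∈ U) ∧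
        ∃ π : U →+ (ρ.V ⧸ (I • (⊤ : Submodule T ρ.V))), Function.Surjective π ∧
          ∀ (σ : GQ) (u u' : U), (u' : ι → M) = σ • (u : ι → M) →
            π u' = ρ.levelAction I σ (π u) := by
  classical
  obtain ⟨k, hk⟩ := exists_pow_le_of_finite_quotient I
  obtain ⟨n, hn⟩ := hψc k
  obtain ⟨a, b, hab⟩ := exists_commutator_trace_ne_two hnd
  have hab' : IsUnit ((r (a * b * a⁻¹ * b⁻¹)).trace - 2) := notMem_maximalIdeal.mp fun h => hab (by
    rw [← residue_eq_zero_iff, map_sub, map_ofNat, sub_eq_zero] at h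
    show ((r (a * b * a⁻¹ * b⁻¹)).map (residue T)).trace = 2
    rw [Matrix.trace_fin_two, Matrix.map_apply, Matrix.map_apply, ← map_add, ← Matrix.trace_fin_two,
      h])
  obtain ⟨bas, hbas⟩ := hr
  refine ⟨n, fun M _ _ φ hφ hφ0 hφσ => ?_⟩
  set P : Submodule T ρ.V := I • ⊤ with hP
  have hfin : Finite (ρ.V ⧸ P) := by
    refine Finite.of_surjective
      (fun c : Fin 2 → T ⧸ I => P.mkQ (∑ i, (c i).out • bas i)) fun w => ?_
    obtain ⟨v, rfl⟩ := P.mkQ_surjective w
    refine ⟨fun i => Ideal.Quotient.mk I (bas.repr v i), ?_⟩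
    refine (Submodule.Quotient.eq P).mpr ?_
    rw [← bas.sum_repr v, ← Finset.sum_sub_distrib, bas.sum_repr v]
    exact Submodule.sum_mem _ fun i _ => by
      rw [← sub_smul]
      exact Submodule.smul_mem_smul (Ideal.Quotient.eq.mp (Ideal.Quotient.mk_out _)) Submodule.mem_top
  refine ⟨hfin, ?_⟩
  obtain ⟨gens, hgens⟩ := Module.Finite.fg_top (R := ℤ_[p]) (M := D.L)
  -- the kernels
  have hmat : ∀ X, LinearMap.toMatrix bas bas (gV ρ X) = gR r X := fun X => by
    induction X using MonoidAlgebra.induction_on with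
    | of g => rw [gV_of, gR_of, hbas]
    | add X Y hX hY => rw [map_add, map_add, map_add, hX, hY]
    | smul c X hX => rw [map_zsmul, map_zsmul, map_zsmul, hX]
  have hkey : ∀ X, (∀ v ∈ gens, φ (gD D X v) = 0) → ∀ v, gV ρ X v ∈ P := by
    intro X hX
    have hall : ∀ v : D.L, ∃ w, gD D X v = (p ^ n : ℤ_[p]) • w := by
      intro v
      have hv : v ∈ Submodule.span ℤ_[p] (gens : Set D.L) := hgens ▸ Submodule.mem_top
      induction hv using Submodule.span_induction with
      | mem x hx => exact hφ _ (hX x hx)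
      | zero => exact ⟨0, by simp⟩
      | add x y _ _ hx hy =>
        obtain ⟨u, hu⟩ := hx
        obtain ⟨u', hu'⟩ := hy
        exact ⟨u + u', by rw [map_add, hu, hu', smul_add]⟩
      | smul c x _ hx =>
        obtain ⟨u, hu⟩ := hx
        exact ⟨c • u, by rw [map_smul, hu, smul_comm]⟩
    have h0 := redMat_gR_eq_zero D S ψ hnd htr hab' hn (y := 1) (by rw [map_one]; exact isUnit_one)
      (X := X) fun v => by
        obtain ⟨w, hw⟩ := hall v
        exact ⟨w, by rw [OneMemClass.coe_one, Module.End.one_apply, hw]⟩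
    intro v
    rw [← bas.sum_repr v, map_sum]
    refine Submodule.sum_mem _ fun j _ => ?_
    rw [map_smul]
    refine Submodule.smul_mem _ _ ?_
    rw [← bas.sum_repr (gV ρ X (bas j))]
    refine Submodule.sum_mem _ fun i _ => Submodule.smul_mem_smul (hk ?_) Submodule.mem_top
    have := congrFun (congrFun h0 i) j
    rw [← hmat] at this
    exact Ideal.Quotient.eq_zero_iff_mem.mp (by simpa [LinearMap.toMatrix_apply] using this)
  haveI : Finite (ρ.V ⧸ P) := hfin
  let f : MonoidAlgebra ℤ GQ →+ (gens → M) :=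
    { toFun := fun X v => φ (gD D X v.1)
      map_zero' := funext fun v => by simp
      map_add' := fun X Y => funext fun v => by simp }
  let act : (ρ.V ⧸ P) → MonoidAlgebra ℤ GQ →+ (ρ.V ⧸ P) := fun j =>
    P.mkQ.toAddMonoidHom.comp
      ((LinearMap.applyₗ (j.out : ρ.V)).toAddMonoidHom.comp (gV ρ).toAddMonoidHom)
  refine exists_quotient_of_ker f (fun σ X => funext fun v => ?_) act (fun w => ?_)
    (fun σ => (ρ.levelAction I σ).toAddMonoidHom) (fun σ w X => ?_) (fun X hX w => ?_)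
  · show φ (gD D (_ * X) v.1) = σ • φ (gD D X v.1)
    rw [map_mul, gD_of, Module.End.mul_apply, hφσ]
  · show P.mkQ (gV ρ 1 w.out) = w
    rw [map_one, Module.End.one_apply, Submodule.mkQ_apply]
    exact Submodule.Quotient.mk_out w
  · show P.mkQ (gV ρ (_ * X) w.out) = ρ.levelAction I σ (P.mkQ (gV ρ X w.out))
    rw [map_mul, gV_of]
    rfl
  · exact (Submodule.Quotient.mk_eq_zero _).mpr (hkey _ (fun v hv => congrFun hX ⟨v, hv⟩) _)

end Fermat.Agent.GalRep.Flat
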